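import Mathlib

/-!
# Row LT, tower A2, leaf A2.03.1.1.10.09 (helper312): small elements of `𝓞 K`

Mathlib only.  OFF-MAIN.

* `exists_small_inf312`: nonzero integers which are small at every infinite place but one
  (Minkowski).
* `exists_small_fin312`: nonzero integers which are small at finitely many finite places.
* `norm_factorial_tendsto312`: `n !` tends to zero at every finite place.
-/

set_option autoImplicit false
set_option linter.unusedSectionVars false

open IsDedekindDomain NumberField Filter Topology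
open scoped NNReal

noncomputable section

namespace Fermat.Agent.LT.A2.H312

variable {K : Type} [Field K] [NumberField K]

/-- the norm of an integer at a finite place -/
def nrmF (v : HeightOneSpectrum (𝓞 K)) (a : 𝓞 K) : ℝ :=
  ‖algebraMap K (v.adicCompletion K) (algebraMap (𝓞 K) K a)‖

theorem nrmF_le_one (v : HeightOneSpectrum (𝓞 K)) (a : 𝓞 K) : nrmF v a ≤ 1 :=
  NumberField.FinitePlace.norm_le_one K v a

theorem nrmF_nonneg (v : HeightOneSpectrum (𝓞 K)) (a : 𝓞 K) : 0 ≤ nrmF v a := norm_nonneg _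

theorem nrmF_mul (v : HeightOneSpectrum (𝓞 K)) (a b : 𝓞 K) :
    nrmF v (a * b) = nrmF v a * nrmF v b := by
  unfold nrmF
  rw [map_mul, map_mul, norm_mul]

theorem nrmF_one (v : HeightOneSpectrum (𝓞 K)) : nrmF v (1 : 𝓞 K) = 1 := by
  unfold nrmF
  rw [map_one, map_one, norm_one]

theorem nrmF_pow (v : HeightOneSpectrum (𝓞 K)) (a : 𝓞 K) (n : ℕ) :
    nrmF v (a ^ n) = nrmF v a ^ n := by
  unfold nrmF
  rw [map_pow, map_pow, norm_pow]

theorem nrmF_lt_one_of_mem {v : HeightOneSpectrum (𝓞 K)} {a : 𝓞 K} (h : a ∈ v.asIdeal) :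
    nrmF v a < 1 :=
  (NumberField.FinitePlace.norm_lt_one_iff_mem K v a).2 h

/-- the absolute norm of `v`, as an element of `𝓞 K` -/
def piOf (v : HeightOneSpectrum (𝓞 K)) : 𝓞 K := ((Ideal.absNorm v.asIdeal : ℕ) : 𝓞 K)

theorem piOf_mem (v : HeightOneSpectrum (𝓞 K)) : piOf v ∈ v.asIdeal :=
  Ideal.absNorm_mem v.asIdeal

theorem piOf_ne_zero (v : HeightOneSpectrum (𝓞 K)) : piOf v ≠ 0 := by
  unfold piOf
  have h := HeightOneSpectrum.one_lt_absNorm v
  have : (Ideal.absNorm v.asIdeal : ℕ) ≠ 0 := by omega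
  exact_mod_cast this

theorem nrmF_piOf_lt_one (v : HeightOneSpectrum (𝓞 K)) : nrmF v (piOf v) < 1 :=
  nrmF_lt_one_of_mem (piOf_mem v)

/-- a nonzero integer which is smaller than `1 / M` at `v` -/
theorem exists_small_at312 (v : HeightOneSpectrum (𝓞 K)) {M : ℝ} (hM : 1 ≤ M) :
    ∃ D : 𝓞 K, D ≠ 0 ∧ nrmF v D * M ≤ 1 := by
  have hpos : (0 : ℝ) < 1 / M := by positivity
  obtain ⟨n, hn⟩ := exists_pow_lt_of_lt_one hpos (nrmF_piOf_lt_one v)
  refine ⟨piOf v ^ n, pow_ne_zero _ (piOf_ne_zero v), ?_⟩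
  rw [nrmF_pow]
  have hM0 : 0 < M := by linarith
  calc nrmF v (piOf v) ^ n * M ≤ (1 / M) * M := mul_le_mul_of_nonneg_right hn.le hM0.le
    _ = 1 := by field_simp

/-- a nonzero integer which is smaller than `1 / M v` at every place `v` of a finite set -/
theorem exists_small_fin312 (S : Finset (HeightOneSpectrum (𝓞 K)))
    (M : HeightOneSpectrum (𝓞 K) → ℝ) (hM : ∀ v, 1 ≤ M v) :
    ∃ D : 𝓞 K, D ≠ 0 ∧ ∀ v ∈ S, nrmF v D * M v ≤ 1 := by
  classical
  choose Dv hDv0 hDv using fun v => exists_small_at312 (K := K) v (hM v)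
  refine ⟨∏ v ∈ S, Dv v, Finset.prod_ne_zero_iff.2 (fun v _ => hDv0 v), fun v hv => ?_⟩
  rw [← Finset.mul_prod_erase S Dv hv, nrmF_mul]
  have h1 : nrmF v (∏ x ∈ S.erase v, Dv x) ≤ 1 := nrmF_le_one v _
  have h0 : 0 ≤ M v := le_trans zero_le_one (hM v)
  calc nrmF v (Dv v) * nrmF v (∏ x ∈ S.erase v, Dv x) * M v
      ≤ nrmF v (Dv v) * 1 * M v :=
        mul_le_mul_of_nonneg_right (mul_le_mul_of_nonneg_left h1 (nrmF_nonneg v _)) h0
    _ = nrmF v (Dv v) * M v := by rw [mul_one]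
    _ ≤ 1 := hDv v

/-- **Minkowski**: a nonzero integer which is small at every infinite place but `u` -/
theorem exists_small_inf312 (u : InfinitePlace K) (f : InfinitePlace K → ℝ)
    (hf : ∀ w, 0 < f w) :
    ∃ a : 𝓞 K, a ≠ 0 ∧ ∀ w : InfinitePlace K, w ≠ u → w (a : K) < f w := by
  let f' : InfinitePlace K → ℝ≥0 := fun w => ⟨f w, (hf w).le⟩
  have hf' : ∀ w, w ≠ u → f' w ≠ 0 := by
    intro w _ h
    have := congrArg NNReal.toReal h
    simp only [f', NNReal.coe_zero] at this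
    exact (hf w).ne' this
  have hlt := NumberField.mixedEmbedding.minkowskiBound_lt_top K
    (1 : (FractionalIdeal (nonZeroDivisors (𝓞 K)) K)ˣ)
  set B : ℝ≥0 := (NumberField.mixedEmbedding.minkowskiBound K
    (1 : (FractionalIdeal (nonZeroDivisors (𝓞 K)) K)ˣ)).toNNReal + 1 with hB
  obtain ⟨g, hg1, hg2⟩ := NumberField.mixedEmbedding.adjust_f K (w₁ := u) B hf'
  have h1 : NumberField.mixedEmbedding.minkowskiBound K
      (1 : (FractionalIdeal (nonZeroDivisors (𝓞 K)) K)ˣ) < (B : ENNReal) := by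
    rw [hB]
    push_cast
    rw [ENNReal.coe_toNNReal hlt.ne]
    exact ENNReal.lt_add_right hlt.ne one_ne_zero
  have h2 : (B : ENNReal) ≤ (NumberField.mixedEmbedding.convexBodyLTFactor K : ENNReal) * B := by
    have := NumberField.mixedEmbedding.one_le_convexBodyLTFactor K
    calc (B : ENNReal) = 1 * B := (one_mul _).symm
      _ ≤ _ := mul_le_mul_left (by exact_mod_cast this) _
  obtain ⟨a, ha0, ha⟩ :=
    NumberField.mixedEmbedding.exists_ne_zero_mem_ringOfIntegers_lt K (f := g) (by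
      rw [NumberField.mixedEmbedding.convexBodyLT_volume, hg2]
      exact lt_of_lt_of_le h1 h2)
  refine ⟨a, ha0, fun w hw => ?_⟩
  have := ha w
  rw [hg1 w hw] at this
  exact this

/-! ## factorials -/

theorem nrmF_natCast_le_one (v : HeightOneSpectrum (𝓞 K)) (m : ℕ) : nrmF v (m : 𝓞 K) ≤ 1 :=
  nrmF_le_one v _

theorem nrmF_factorial_le (v : HeightOneSpectrum (𝓞 K)) (n : ℕ) :
    nrmF v ((n.factorial : ℕ) : 𝓞 K)
      ≤ nrmF v (piOf v) ^ (n / Ideal.absNorm v.asIdeal) := by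
  induction n with
  | zero => simp [nrmF_one]
  | succ n ih =>
    have hρ0 := nrmF_nonneg v (piOf v)
    have hρ1 := (nrmF_piOf_lt_one v).le
    rw [Nat.factorial_succ, Nat.cast_mul, nrmF_mul]
    by_cases hd : Ideal.absNorm v.asIdeal ∣ n + 1
    · obtain ⟨m, hm⟩ := hd
      have h1 : nrmF v ((n + 1 : ℕ) : 𝓞 K) ≤ nrmF v (piOf v) := by
        rw [hm, Nat.cast_mul, nrmF_mul]
        calc nrmF v ((Ideal.absNorm v.asIdeal : ℕ) : 𝓞 K) * nrmF v (m : 𝓞 K)
            ≤ nrmF v ((Ideal.absNorm v.asIdeal : ℕ) : 𝓞 K) * 1 :=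
              mul_le_mul_of_nonneg_left (nrmF_natCast_le_one v m) (nrmF_nonneg v _)
          _ = nrmF v (piOf v) := by rw [mul_one]; rfl
      have h2 : (n + 1) / Ideal.absNorm v.asIdeal = n / Ideal.absNorm v.asIdeal + 1 := by
        rw [Nat.succ_div, if_pos ⟨m, hm⟩]
      rw [h2, pow_succ, mul_comm]
      exact mul_le_mul ih h1 (nrmF_nonneg v _) (pow_nonneg hρ0 _)
    · have h2 : (n + 1) / Ideal.absNorm v.asIdeal = n / Ideal.absNorm v.asIdeal := by
        rw [Nat.succ_div, if_neg hd, add_zero]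
      rw [h2]
      calc nrmF v ((n + 1 : ℕ) : 𝓞 K) * nrmF v ((n.factorial : ℕ) : 𝓞 K)
          ≤ 1 * nrmF v ((n.factorial : ℕ) : 𝓞 K) :=
            mul_le_mul_of_nonneg_right (nrmF_natCast_le_one v _) (nrmF_nonneg v _)
        _ = nrmF v ((n.factorial : ℕ) : 𝓞 K) := one_mul _
        _ ≤ _ := ih

theorem nrmF_factorial_tendsto312 (v : HeightOneSpectrum (𝓞 K)) :
    Tendsto (fun n : ℕ => nrmF v ((n.factorial : ℕ) : 𝓞 K)) atTop (𝓝 0) := by
  have hN : 0 < Ideal.absNorm v.asIdeal := by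
    have := HeightOneSpectrum.one_lt_absNorm v
    omega
  have h1 : Tendsto (fun n : ℕ => n / Ideal.absNorm v.asIdeal) atTop atTop :=
    Nat.tendsto_div_const_atTop hN.ne'
  have h2 : Tendsto (fun n : ℕ => nrmF v (piOf v) ^ (n / Ideal.absNorm v.asIdeal)) atTop (𝓝 0) :=
    (tendsto_pow_atTop_nhds_zero_of_lt_one (nrmF_nonneg v _) (nrmF_piOf_lt_one v)).comp h1
  exact squeeze_zero (fun n => nrmF_nonneg v _) (nrmF_factorial_le v) h2

theorem factorial_ne_zero312 (n : ℕ) : ((n.factorial : ℕ) : 𝓞 K) ≠ 0 := by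
  have := Nat.factorial_ne_zero n
  exact_mod_cast this

end Fermat.Agent.LT.A2.H312
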