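import Mathlib
import Fermat.Agent.LT.H556.A0
import Fermat.Agent.LT.A2.H312.SAMink

/-!
# Row LT, tower A2, leaf A2.03.1.1.10.09 (helper312): strong approximation

Mathlib + A0 only.  OFF-MAIN.

* `compact_bounds_sa312`: a compact set of adeles is integral outside a finite set of places
  and bounded at every place.
* `strong_approx312`: if `𝔸_K = K + C` with `C` compact, then for every adele `x`, every infinite
  place `u`, every `ε > 0` and every nonzero integer `d` there is `k ∈ K` such that `x - k` is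
  smaller than `ε` at every infinite place `≠ u` and divisible by `d` at every finite place.
-/

set_option autoImplicit false
set_option linter.unusedSectionVars false

open IsDedekindDomain NumberField Filter Topology
open scoped NNReal
open Fermat.Agent.LT.H556.A0

noncomputable section

namespace Fermat.Agent.LT.A2.H312

variable {K : Type} [Field K] [NumberField K]

theorem continuous_finC (u : HeightOneSpectrum (𝓞 K)) :
    Continuous (fun y : Adl K => y.2 u) :=
  (RestrictedProduct.continuous_eval u).comp continuous_snd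

theorem continuous_infC (w : InfinitePlace K) :
    Continuous (fun y : Adl K => y.1 w) :=
  (continuous_apply w).comp continuous_fst

/-- a compact set of adeles is integral outside a finite set of places -/
theorem exists_finset_integral_sa312 {E : Set (Adl K)} (hE : IsCompact E) :
    ∃ S : Finset (HeightOneSpectrum (𝓞 K)), ∀ y ∈ E, ∀ u ∉ S, ‖y.2 u‖ ≤ 1 := by
  classical
  have hE' : IsCompact ((fun y : Adl K => y.2) '' E) := hE.image continuous_snd
  let U : Finset (HeightOneSpectrum (𝓞 K)) → Set (FiniteAdeleRing (𝓞 K) K) :=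
    fun S => {f | ∀ u : HeightOneSpectrum (𝓞 K), u ∉ S →
      f.1 u ∈ (u.adicCompletionIntegers K : Set (u.adicCompletion K))}
  have hUo : ∀ S, IsOpen (U S) := fun S =>
    RestrictedProduct.isOpen_forall_imp_mem
      (fun u : HeightOneSpectrum (𝓞 K) => Valued.isOpen_valuationSubring (u.adicCompletion K))
  have hcov : (fun y : Adl K => y.2) '' E ⊆ ⋃ S, U S := by
    intro f _
    have hf : {u : HeightOneSpectrum (𝓞 K) |
        ¬ f.1 u ∈ (u.adicCompletionIntegers K : Set (u.adicCompletion K))}.Finite := f.2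
    refine Set.mem_iUnion.2 ⟨hf.toFinset, ?_⟩
    intro u hu
    by_contra hcon
    exact hu (hf.mem_toFinset.2 hcon)
  have hdir : Directed (fun x1 x2 => x1 ⊆ x2) U := by
    intro S S'
    refine ⟨S ∪ S', ?_, ?_⟩
    · intro f hf u hu
      exact hf u (fun h => hu (Finset.mem_union_left _ h))
    · intro f hf u hu
      exact hf u (fun h => hu (Finset.mem_union_right _ h))
  obtain ⟨S, hS⟩ := hE'.elim_directed_cover U hUo hcov hdir
  refine ⟨S, fun y hy u hu => ?_⟩
  have := hS (Set.mem_image_of_mem _ hy) u hu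
  rw [Valued.toNormedField.norm_le_one_iff]
  exact (HeightOneSpectrum.mem_adicCompletionIntegers (𝓞 K) K u).1 this

theorem exists_bound_fin_sa312 {E : Set (Adl K)} (hE : IsCompact E)
    (u : HeightOneSpectrum (𝓞 K)) : ∃ M : ℝ, 1 ≤ M ∧ ∀ y ∈ E, ‖y.2 u‖ ≤ M := by
  obtain ⟨C, hC⟩ := hE.exists_bound_of_continuousOn (f := fun y : Adl K => y.2 u)
    (continuous_finC u).continuousOn
  exact ⟨max C 1, le_max_right _ _, fun y hy => le_trans (hC y hy) (le_max_left _ _)⟩

theorem exists_bound_inf_sa312 {E : Set (Adl K)} (hE : IsCompact E) (w : InfinitePlace K) :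
    ∃ M : ℝ, 1 ≤ M ∧ ∀ y ∈ E, ‖y.1 w‖ ≤ M := by
  obtain ⟨C, hC⟩ := hE.exists_bound_of_continuousOn (f := fun y : Adl K => y.1 w)
    (continuous_infC w).continuousOn
  exact ⟨max C 1, le_max_right _ _, fun y hy => le_trans (hC y hy) (le_max_left _ _)⟩

/-- packaged bounds for a compact subset of the adeles: one bound `Mf v ≥ 1` at every finite
place, equal to `1` outside a finite set, and one bound `Mi w ≥ 1` at every infinite place -/
theorem compact_bounds_sa312 {E : Set (Adl K)} (hE : IsCompact E) :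
    ∃ (S : Finset (HeightOneSpectrum (𝓞 K))) (Mf : HeightOneSpectrum (𝓞 K) → ℝ)
      (Mi : InfinitePlace K → ℝ),
      (∀ u, 1 ≤ Mf u) ∧ (∀ w, 1 ≤ Mi w) ∧
      (∀ y ∈ E, ∀ u ∉ S, ‖y.2 u‖ ≤ 1) ∧ (∀ y ∈ E, ∀ u, ‖y.2 u‖ ≤ Mf u) ∧
      (∀ y ∈ E, ∀ w, ‖y.1 w‖ ≤ Mi w) := by
  obtain ⟨S, hS⟩ := exists_finset_integral_sa312 hE
  choose Mf hMf1 hMf2 using exists_bound_fin_sa312 (K := K) hE
  choose Mi hMi1 hMi2 using exists_bound_inf_sa312 (K := K) hE
  exact ⟨S, Mf, Mi, hMf1, hMi1, hS, fun y hy u => hMf2 u y hy, fun y hy w => hMi2 w y hy⟩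

/-! ## components of a principal adele -/

theorem fin_algebraMap (v : HeightOneSpectrum (𝓞 K)) (x : K) :
    (algebraMap K (Adl K) x).2 v = algebraMap K (v.adicCompletion K) x := rfl

theorem fin_mul (v : HeightOneSpectrum (𝓞 K)) (x y : Adl K) :
    (x * y).2 v = x.2 v * y.2 v := rfl

theorem inf_mul (w : InfinitePlace K) (x y : Adl K) :
    (x * y).1 w = x.1 w * y.1 w := rfl

theorem norm_inf_algebraMap (w : InfinitePlace K) (x : K) :
    ‖(algebraMap K (Adl K) x).1 w‖ = w x := by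
  have h := InfinitePlace.Completion.norm_coe (v := w) ((WithAbs.equiv w.1).symm x)
  simp only [RingEquiv.apply_symm_apply] at h
  exact h

theorem norm_fin_algebraMap_int (v : HeightOneSpectrum (𝓞 K)) (a : 𝓞 K) :
    ‖(algebraMap K (Adl K) (a : K)).2 v‖ = nrmF v a := rfl

/-! ## strong approximation -/

/-- **strong approximation** (Cassels–Fröhlich II.15) from the compactness of `𝔸_K / K` -/
theorem strong_approx312 {C : Set (Adl K)} (hC : IsCompact C)
    (hcov : ∀ x : Adl K, ∃ ξ : K, x - algebraMap K (Adl K) ξ ∈ C) (u : InfinitePlace K)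
    {ε : ℝ} (hε : 0 < ε) {d : 𝓞 K} (hd : d ≠ 0) (x : Adl K) :
    ∃ k : K, (∀ w : InfinitePlace K, w ≠ u → ‖(x - algebraMap K (Adl K) k).1 w‖ < ε) ∧
      ∀ v : HeightOneSpectrum (𝓞 K), ‖(x - algebraMap K (Adl K) k).2 v‖ ≤ nrmF v d := by
  classical
  obtain ⟨S, Mf, Mi, hMf, hMi, hS, hbf, hbi⟩ := compact_bounds_sa312 hC
  obtain ⟨D, hD0, hD⟩ := exists_small_fin312 S Mf hMf
  have hdD : (d * D : 𝓞 K) ≠ 0 := mul_ne_zero hd hD0
  have hdDK : ((d * D : 𝓞 K) : K) ≠ 0 := RingOfIntegers.coe_ne_zero_iff.mpr hdD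
  -- the Minkowski element
  have hfpos : ∀ w : InfinitePlace K, 0 < ε / (Mi w * w ((d * D : 𝓞 K) : K)) := by
    intro w
    have h1 : 0 < Mi w := lt_of_lt_of_le zero_lt_one (hMi w)
    have h2 : 0 < w ((d * D : 𝓞 K) : K) := InfinitePlace.pos_iff.mpr hdDK
    positivity
  obtain ⟨a, ha0, ha⟩ := exists_small_inf312 u _ hfpos
  set lam : 𝓞 K := d * D * a with hlam
  have hlam0 : (lam : K) ≠ 0 :=
    RingOfIntegers.coe_ne_zero_iff.mpr (mul_ne_zero hdD ha0)
  -- the covering
  obtain ⟨ξ, hξ⟩ := hcov (x * algebraMap K (Adl K) ((lam : K)⁻¹))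
  set c : Adl K := x * algebraMap K (Adl K) ((lam : K)⁻¹) - algebraMap K (Adl K) ξ with hc
  have hx : x - algebraMap K (Adl K) ((lam : K) * ξ) = algebraMap K (Adl K) (lam : K) * c := by
    rw [hc, mul_sub, map_mul]
    have : algebraMap K (Adl K) (lam : K) * (x * algebraMap K (Adl K) ((lam : K)⁻¹)) = x := by
      rw [mul_comm x, ← mul_assoc, ← map_mul, mul_inv_cancel₀ hlam0, map_one, one_mul]
    rw [this]
  refine ⟨(lam : K) * ξ, fun w hw => ?_, fun v => ?_⟩
  · rw [hx, inf_mul, norm_mul, norm_inf_algebraMap]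
    have h1 : 0 < Mi w := lt_of_lt_of_le zero_lt_one (hMi w)
    have h2 : 0 < w ((d * D : 𝓞 K) : K) := InfinitePlace.pos_iff.mpr hdDK
    have h3 : w (lam : K) = w ((d * D : 𝓞 K) : K) * w (a : K) := by
      rw [hlam]
      push_cast
      rw [map_mul, map_mul]
    have h4 := ha w hw
    have h5 : ‖c.1 w‖ ≤ Mi w := hbi c hξ w
    have h6 : w (a : K) * (Mi w * w ((d * D : 𝓞 K) : K)) < ε := by
      rwa [lt_div_iff₀ (mul_pos h1 h2)] at h4
    calc w (lam : K) * ‖c.1 w‖ ≤ w (lam : K) * Mi w :=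
          mul_le_mul_of_nonneg_left h5 (apply_nonneg w _)
      _ = w (a : K) * (Mi w * w ((d * D : 𝓞 K) : K)) := by rw [h3]; ring
      _ < ε := h6
  · rw [hx, fin_mul, norm_mul, norm_fin_algebraMap_int, hlam, nrmF_mul, nrmF_mul]
    have ha1 := nrmF_le_one v a
    have hD1 := nrmF_le_one v D
    have hn0 := nrmF_nonneg v d
    have hnD := nrmF_nonneg v D
    have hna := nrmF_nonneg v a
    have hc0 := norm_nonneg (c.2 v)
    have key : nrmF v D * ‖c.2 v‖ ≤ 1 := by
      by_cases hv : v ∈ S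
      · calc nrmF v D * ‖c.2 v‖ ≤ nrmF v D * Mf v :=
              mul_le_mul_of_nonneg_left (hbf c hξ v) hnD
          _ ≤ 1 := hD v hv
      · calc nrmF v D * ‖c.2 v‖ ≤ 1 * 1 := mul_le_mul hD1 (hS c hξ v hv) hc0 zero_le_one
          _ = 1 := one_mul 1
    calc nrmF v d * nrmF v D * nrmF v a * ‖c.2 v‖
        = nrmF v d * (nrmF v a * (nrmF v D * ‖c.2 v‖)) := by ring
      _ ≤ nrmF v d * (1 * 1) :=
          mul_le_mul_of_nonneg_left
            (mul_le_mul ha1 key (mul_nonneg hnD hc0) zero_le_one) hn0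
      _ = nrmF v d := by ring

end Fermat.Agent.LT.A2.H312
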