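import Fermat.Agent.LT.A2.H798.CpxSpec
import Fermat.Agent.LT.A2.H312.SACompact

/-!
# Row LT, tower A2, leaf A2.03.1.1.10.09 `CX798.LocNontrivC` (helper312)

OFF-MAIN.  `locNontrivC312 : CX798.LocNontrivC`: a nontrivial continuous character of `𝔸_K`
trivial on `K` is nontrivial on `K_u`, `u` an infinite place (strong approximation, from the
compactness of `𝔸_K / K` = `T1.AdeleLatticeC` and Minkowski's theorem).
-/

set_option autoImplicit false
set_option linter.unusedSectionVars false

open IsDedekindDomain NumberField Filter Topology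
open scoped NNReal
open Fermat.Agent.LT.H556.A0

noncomputable section

namespace Fermat.Agent.LT.A2.H312

variable {K : Type} [Field K] [NumberField K]

open Classical in
/-- the part of an adele at the infinite place `u` -/
def atU (u : InfinitePlace K) (r : Adl K) : Adl K :=
  ((fun w => if w = u then r.1 w else 0 : InfiniteAdeleRing K), (0 : FiniteAdeleRing (𝓞 K) K))

open Classical in
theorem atU_inf_self (u : InfinitePlace K) (r : Adl K) : (atU u r).1 u = r.1 u := by
  show (if u = u then r.1 u else 0) = r.1 u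
  rw [if_pos rfl]

open Classical in
theorem atU_inf_of_ne {u w : InfinitePlace K} (h : w ≠ u) (r : Adl K) : (atU u r).1 w = 0 := by
  show (if w = u then r.1 w else 0) = 0
  rw [if_neg h]

theorem atU_fin (u : InfinitePlace K) (r : Adl K) (v : HeightOneSpectrum (𝓞 K)) :
    (atU u r).2 v = 0 := rfl

theorem atU_atInf (u : InfinitePlace K) (r : Adl K) :
    Fermat.Agent.LT.A2.WL.AdlAtInf u (atU u r) :=
  ⟨fun _ hw => atU_inf_of_ne hw r, fun v => atU_fin u r v⟩

theorem sub_inf (w : InfinitePlace K) (x y : Adl K) : (x - y).1 w = x.1 w - y.1 w := rfl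

theorem sub_fin (v : HeightOneSpectrum (𝓞 K)) (x y : Adl K) : (x - y).2 v = x.2 v - y.2 v := rfl

/-- convergence to zero in the adeles of a sequence which is integral at every finite place -/
theorem tendsto_zero_of_components312 (y : ℕ → Adl K)
    (hint : ∀ n (v : HeightOneSpectrum (𝓞 K)), ‖(y n).2 v‖ ≤ 1)
    (hinf : ∀ w : InfinitePlace K, Tendsto (fun n => (y n).1 w) atTop (𝓝 0))
    (hfin : ∀ v : HeightOneSpectrum (𝓞 K), Tendsto (fun n => (y n).2 v) atTop (𝓝 0)) :
    Tendsto y atTop (𝓝 0) := by
  have h1 : Tendsto (fun n => (y n).1) atTop (𝓝 (0 : InfiniteAdeleRing K)) := by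
    refine tendsto_pi_nhds.2 fun w => ?_
    exact hinf w
  -- the finite part through the structure map
  let y' : ℕ → ((v : HeightOneSpectrum (𝓞 K)) →
      ((v.adicCompletionIntegers K : Set (v.adicCompletion K)) : Type)) :=
    fun n v => ⟨(y n).2 v, by
      have := hint n v
      rw [Valued.toNormedField.norm_le_one_iff] at this
      exact (HeightOneSpectrum.mem_adicCompletionIntegers (𝓞 K) K v).2 this⟩
  let z₀ : (v : HeightOneSpectrum (𝓞 K)) →
      ((v.adicCompletionIntegers K : Set (v.adicCompletion K)) : Type) :=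
    fun v => ⟨0, zero_mem _⟩
  have h2' : Tendsto y' atTop (𝓝 z₀) := by
    refine tendsto_pi_nhds.2 fun v => ?_
    rw [tendsto_subtype_rng]
    exact hfin v
  have hcont := (RestrictedProduct.isEmbedding_structureMap
    (R := fun v : HeightOneSpectrum (𝓞 K) => v.adicCompletion K)
    (A := fun v : HeightOneSpectrum (𝓞 K) =>
      (v.adicCompletionIntegers K : Set (v.adicCompletion K)))
    (𝓕 := Filter.cofinite)).continuous
  have h2'' := (hcont.tendsto z₀).comp h2'
  have e1 : (fun n => (y n).2) = (RestrictedProduct.structureMap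
      (fun v : HeightOneSpectrum (𝓞 K) => v.adicCompletion K)
      (fun v : HeightOneSpectrum (𝓞 K) =>
        (v.adicCompletionIntegers K : Set (v.adicCompletion K))) Filter.cofinite) ∘ y' := by
    funext n
    apply RestrictedProduct.ext
    intro v
    rfl
  have e2 : (RestrictedProduct.structureMap
      (fun v : HeightOneSpectrum (𝓞 K) => v.adicCompletion K)
      (fun v : HeightOneSpectrum (𝓞 K) =>
        (v.adicCompletionIntegers K : Set (v.adicCompletion K))) Filter.cofinite) z₀
      = (0 : FiniteAdeleRing (𝓞 K) K) := by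
    apply RestrictedProduct.ext
    intro v
    rfl
  have h2 : Tendsto (fun n => (y n).2) atTop (𝓝 (0 : FiniteAdeleRing (𝓞 K) K)) := by
    rw [e1, ← e2]
    exact h2''
  exact h1.prodMk_nhds h2

/-- **A2.03.1.1.10.09 `LocNontrivC`.** -/
theorem locNontrivC312 : Fermat.Agent.LT.A2.CX798.LocNontrivC := by
  intro K _ _ ψ u hT hψ
  by_contra hcon
  push Not at hcon
  obtain ⟨x₀, hx₀⟩ := hψ.nontriv
  apply hx₀
  obtain ⟨_, _, C, hC, hcov⟩ := hT.adeleLattice
  have hseq : ∀ n : ℕ, ∃ y : Adl K, ψ x₀ = ψ y ∧
      (∀ w : InfinitePlace K, ‖y.1 w‖ ≤ 1 / ((n : ℝ) + 1)) ∧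
      ∀ v : HeightOneSpectrum (𝓞 K), ‖y.2 v‖ ≤ nrmF v ((n.factorial : ℕ) : 𝓞 K) := by
    intro n
    have hε : (0 : ℝ) < 1 / ((n : ℝ) + 1) := by positivity
    obtain ⟨k, hk1, hk2⟩ := strong_approx312 hC hcov u hε (factorial_ne_zero312 (K := K) n) x₀
    refine ⟨(x₀ - algebraMap K (Adl K) k) - atU u (x₀ - algebraMap K (Adl K) k), ?_, ?_, ?_⟩
    · have e : x₀ = algebraMap K (Adl K) k
          + (((x₀ - algebraMap K (Adl K) k) - atU u (x₀ - algebraMap K (Adl K) k))
            + atU u (x₀ - algebraMap K (Adl K) k)) := by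
        abel
      conv_lhs => rw [e]
      rw [hψ.map_add, hψ.map_add, hψ.triv, hcon _ (atU_atInf u _), one_mul, mul_one]
    · intro w
      rw [sub_inf]
      by_cases hw : w = u
      · subst hw
        rw [atU_inf_self, sub_self, norm_zero]
        exact hε.le
      · rw [atU_inf_of_ne hw, sub_zero]
        exact (hk1 w hw).le
    · intro v
      rw [sub_fin, atU_fin, sub_zero]
      exact hk2 v
  choose y hy1 hy2 hy3 using hseq
  have hlim : Tendsto y atTop (𝓝 0) := by
    apply tendsto_zero_of_components312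
    · intro n v
      exact le_trans (hy3 n v) (nrmF_le_one v _)
    · intro w
      exact squeeze_zero_norm (fun n => hy2 n w) tendsto_one_div_add_atTop_nhds_zero_nat
    · intro v
      exact squeeze_zero_norm (fun n => hy3 n v) (nrmF_factorial_tendsto312 v)
  have h1 : Tendsto (fun n => ψ (y n)) atTop (𝓝 (ψ 0)) := (hψ.cont.tendsto 0).comp hlim
  have h2 : (fun n => ψ (y n)) = fun _ => ψ x₀ := funext fun n => (hy1 n).symm
  rw [h2] at h1
  have h3 : ψ x₀ = ψ 0 := tendsto_nhds_unique tendsto_const_nhds h1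
  have h0 : ψ 0 = 1 := by
    have := hψ.triv 0
    rwa [map_zero] at this
  rw [h3, h0]

end Fermat.Agent.LT.A2.H312
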